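/-
GATE-H (S19) / node L, file 1 (helper38): consequences of `LSpaceHyp` for ALL divisors.

Abstract frame `R : RedData K F k Ft`, `H : LSpaceHyp R g c` (GJ/S37/LSpaceRed).  `LSpaceHyp.orth`
speaks about EFFECTIVE divisors only and `LSpaceHyp.rrF` about large degree only.  Here:

* `exists_valuation_eq`   : every nonzero function has the Gauss norm of a scalar (unramified);
* `exists_unit_smul`      : hence a scalar multiple which is a unit of `R.Rw`;
* `redSpace_le`           : `red (L(D) ∩ Rw) ⊆ L(r_* D)` for EVERY divisor `D`;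
* `finrank_redSpace_eq`   : `dim_k red (L(D) ∩ Rw) = dim_K L(D)` for EVERY divisor `D`;
* `finrank_le_mapDomain`  : SEMICONTINUITY `l(D) ≤ l(r_* D)`;
* `riemann_ineq`          : Riemann's inequality `deg D + 1 - g ≤ l(D)` for EVERY divisor `D`;
* push-forward calculus `mapDomain_nonneg'`, `mapDomain_mono'`, `degree_mapDomain'`.
-/
import Mathlib
import Fermat.Agent.GJ.S37.ROfSurj
import Fermat.Agent.GJ.Lattice.OrthoRedData

set_option autoImplicit false

noncomputable section

open AlgebraicCurve Module

namespace Fermat.Agent.GH.L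

open Fermat.Agent.RRh45 Fermat.Agent.GJ.S37MinDiv Fermat.Agent.GJ.J1 Fermat.Agent.GJ.S37LSpace
  Fermat.Agent.GJ.S37ROfSurj Fermat.Agent.GJ.Ortho

variable {K F k Ft : Type*} [Field K] [Field F] [Algebra K F] [Field k] [Field Ft] [Algebra k Ft]
variable {R : RedData K F k Ft} {g c : ℤ}

/-! ### Orthonormal families from independent reductions -/

/-- lifts of a `k`-linearly independent family form an orthonormal family. -/
theorem isOrthoFamily_of_linearIndependent_red (R : RedData K F k Ft) {ι : Type*} [Fintype ι]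
    (x : ι → R.Rw) (hx : LinearIndependent k fun i => R.red (x i)) :
    IsOrthoFamily R.A R.Rw (fun i => ((x i : R.Rw) : F)) where
  mem := fun i => (x i).2
  indep := by
    intro cf hcf hmem j
    classical
    obtain ⟨z, hz1, hz2⟩ := R.orthoRedSystem.exists_comb (fun i => (⟨cf i, hcf i⟩ : R.A)) x
    have hzF : (z : F) = Finsupp.linearCombination K (fun i => ((x i : R.Rw) : F)) cf := by
      rw [hz1, Finsupp.linearCombination_apply, Finsupp.sum_fintype]
      intro i; exact zero_smul _ _
    have hz0 : R.red z = 0 := by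
      rw [R.orthoRedSystem.red_ker, hzF]; exact hmem
    rw [hz2] at hz0
    have := (Fintype.linearIndependent_iff.mp hx) (fun i => R.res ⟨cf i, hcf i⟩) hz0 j
    exact (R.orthoRedSystem.res_ker ⟨cf j, hcf j⟩).mp this

/-! ### Push-forward calculus -/

section PushForward

variable {α β : Type*}

theorem mapDomain_nonneg' (r : α → β) {D : α →₀ ℤ} (hD : 0 ≤ D) :
    (0 : β →₀ ℤ) ≤ Finsupp.mapDomain r D := by
  classical
  rw [Finsupp.mapDomain, Finsupp.sum]
  refine Finset.sum_nonneg fun P _ => Finsupp.single_nonneg.mpr ?_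
  simpa using Finsupp.le_def.mp hD P

theorem mapDomain_mono' (r : α → β) {D D' : α →₀ ℤ} (h : D ≤ D') :
    Finsupp.mapDomain r D ≤ Finsupp.mapDomain r D' := by
  have h1 := mapDomain_nonneg' r (sub_nonneg.mpr h)
  rw [Finsupp.mapDomain_sub] at h1
  exact sub_nonneg.mp h1

end PushForward

theorem degree_mapDomain' {K₁ F₁ K₂ F₂ : Type*} [Field K₁] [Field F₁] [Algebra K₁ F₁] [Field K₂]
    [Field F₂] [Algebra K₂ F₂] (r : Place K₁ F₁ → Place K₂ F₂)
    (h₁ : ∀ P : Place K₁ F₁, P.deg = 1) (h₂ : ∀ Q : Place K₂ F₂, Q.deg = 1)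
    (D : Divisor K₁ F₁) : Divisor.degree (Finsupp.mapDomain r D) = Divisor.degree D := by
  classical
  induction D using Finsupp.induction_linear with
  | zero => simp
  | add D D' h h' => rw [Finsupp.mapDomain_add, map_add, map_add, h, h']
  | single P n =>
    rw [Finsupp.mapDomain_single, Divisor.degree_single, Divisor.degree_single, h₁ P, h₂ (r P)]

/-! ### Multiplication by a nonzero function -/

/-- multiplication by `y ≠ 0` as a `K`-linear automorphism of `F`. -/
def mulEquiv (K : Type*) {F : Type*} [Field K] [Field F] [Algebra K F] (y : F) (hy : y ≠ 0) :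
    F ≃ₗ[K] F where
  toFun x := y * x
  invFun x := y⁻¹ * x
  map_add' a b := mul_add y a b
  map_smul' a b := by simp [Algebra.smul_def, mul_left_comm]
  left_inv x := by simp [← mul_assoc, inv_mul_cancel₀ hy]
  right_inv x := by simp [← mul_assoc, mul_inv_cancel₀ hy]

/-- subspaces related by multiplication by a nonzero function have the same dimension. -/
theorem finrank_eq_of_mul_iff {K F : Type*} [Field K] [Field F] [Algebra K F]
    {V W : Submodule K F} (y : F) (hy : y ≠ 0) (h : ∀ x, y * x ∈ V ↔ x ∈ W) :
    finrank K V = finrank K W := by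
  have hmap : V = W.map (mulEquiv K y hy : F →ₗ[K] F) := by
    ext x'
    rw [Submodule.mem_map]
    constructor
    · intro hx'
      refine ⟨y⁻¹ * x', (h _).mp ?_, ?_⟩
      · rwa [← mul_assoc, mul_inv_cancel₀ hy, one_mul]
      · show y * (y⁻¹ * x') = x'
        rw [← mul_assoc, mul_inv_cancel₀ hy, one_mul]
    · rintro ⟨x, hx, rfl⟩
      exact (h x).mpr hx
  rw [hmap]
  exact LinearEquiv.finrank_map_eq (mulEquiv K y hy) W

variable [FiniteResidues K F] [HasPrincipalDivisors K F] [Nonempty (Place K F)]

/-! ### Unramifiedness -/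

/-- **unramified**: every nonzero function has the Gauss norm of a scalar.  (From `orth` for the
pole divisor of `x`: lifts of a basis of the reduced space are an orthonormal basis of `L(D)`.) -/
theorem exists_valuation_eq (H : LSpaceHyp R g c) {x : F} (hx : x ≠ 0) :
    ∃ a : K, a ≠ 0 ∧ R.Rw.valuation x = R.Rw.valuation (algebraMap K F a) := by
  classical
  obtain ⟨Dx, hDx, -⟩ := HasPrincipalDivisors.exists_divisor (K := K) x hx
  set D : Divisor K F := (-Dx) ⊔ 0 with hD
  have hD0 : 0 ≤ D := le_sup_right
  have hxD : x ∈ riemannRochSpace D := mem_riemannRochSpace_neg_sup_zero hDx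
  have hfin : Module.Finite k (redSpace R D) := finite_redSpace H hD0
  have horth := H.orth D hD0
  let b := Module.finBasis k (redSpace R D)
  have hb : ∀ i, ∃ y : R.Rw, (y : F) ∈ riemannRochSpace D ∧ R.red y = ((b i : redSpace R D) : Ft) :=
    fun i => (b i).2
  choose y hyD hyb using hb
  have hli : LinearIndependent k fun i => R.red (y i) := by
    have : (fun i => R.red (y i)) = (redSpace R D).subtype ∘ b := by
      funext i; exact hyb i
    rw [this]
    exact b.linearIndependent.map' _ (Submodule.ker_subtype _)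
  have hortho := isOrthoFamily_of_linearIndependent_red R y hli
  have hliK : LinearIndependent K fun i => ((y i : R.Rw) : F) :=
    hortho.linearIndependent R.orthoMemIff
  let y' : Fin (finrank k (redSpace R D)) → riemannRochSpace D := fun i => ⟨(y i : F), hyD i⟩
  have hliK' : LinearIndependent K y' :=
    LinearIndependent.of_comp (riemannRochSpace D).subtype hliK
  have hspan : Submodule.span K (Set.range y') = ⊤ :=
    hliK'.span_eq_top_of_card_eq_finrank' (by rw [Fintype.card_fin, horth])
  have hxmem : (⟨x, hxD⟩ : riemannRochSpace D) ∈ Submodule.span K (Set.range y') := by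
    rw [hspan]; trivial
  obtain ⟨l, hl⟩ := (Submodule.mem_span_range_iff_exists_fun K).mp hxmem
  have hxsum : x = ∑ i, l i • ((y i : R.Rw) : F) := by
    have := congrArg (fun z : riemannRochSpace D => (z : F)) hl
    simp only [Submodule.coe_sum, Submodule.coe_smul] at this
    exact this.symm
  set lf : Fin (finrank k (redSpace R D)) →₀ K := Finsupp.equivFunOnFinite.symm l with hlf
  have hlc : Finsupp.linearCombination K (fun i => ((y i : R.Rw) : F)) lf = x := by
    rw [Finsupp.linearCombination_apply, Finsupp.sum_fintype, hxsum]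
    · rfl
    · intro i; exact zero_smul _ _
  have hlf0 : lf ≠ 0 := by
    intro h0
    rw [h0, map_zero] at hlc
    exact hx hlc.symm
  obtain ⟨j0, h0, hmax⟩ := exists_max_coeff (A := R.A) lf hlf0
  have hv := hortho.valuation_linearCombination R.orthoMemIff lf j0 h0 hmax
  rw [hlc] at hv
  exact ⟨lf j0, h0, hv⟩

/-- every nonzero function has a scalar multiple which is a unit of the Gauss valuation ring. -/
theorem exists_unit_smul (H : LSpaceHyp R g c) {x : F} (hx : x ≠ 0) :
    ∃ a : K, a ≠ 0 ∧ ∃ hmem : algebraMap K F a * x ∈ R.Rw, R.red ⟨_, hmem⟩ ≠ 0 := by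
  obtain ⟨b, hb0, hb⟩ := exists_valuation_eq H hx
  have hbF : algebraMap K F b ≠ 0 := (map_ne_zero_iff _ (algebraMap K F).injective).mpr hb0
  have hval : R.Rw.valuation (algebraMap K F b⁻¹ * x) = 1 := by
    rw [map_mul, hb, ← map_mul, ← map_mul, inv_mul_cancel₀ hb0, map_one, map_one]
  have hmem : algebraMap K F b⁻¹ * x ∈ R.Rw := by
    rw [← ValuationSubring.valuation_le_one_iff, hval]
  refine ⟨b⁻¹, inv_ne_zero hb0, hmem, ?_⟩
  rw [Ne, R.orthoRedSystem.red_ker, ValuationSubring.mem_nonunits_iff, hval]
  exact lt_irrefl _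

/-! ### Reduced spaces of arbitrary divisors -/

variable [FiniteResidues k Ft] [HasPrincipalDivisors k Ft] [Nonempty (Place k Ft)]
variable [Infinite k]

/-- `red (L(D) ∩ Rw) ⊆ L(r_* D)` for EVERY divisor `D`. -/
theorem redSpace_le (H : LSpaceHyp R g c) (D : Divisor K F) :
    redSpace R D ≤ riemannRochSpace (Finsupp.mapDomain (rOf H) D) := by
  classical
  rintro xt ⟨x, hxD, rfl⟩
  rw [mem_riemannRochSpace_iff]
  intro Q
  by_cases hx : R.red x = 0
  · exact Or.inl hx
  right
  have hx0 : (x : F) ≠ 0 := fun h => hx (by rw [show x = 0 from Subtype.ext h, map_zero])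
  obtain ⟨Dx, hDx, -⟩ := HasPrincipalDivisors.exists_divisor (K := K) (x : F) hx0
  have hle : 0 ≤ D + Dx := by
    rw [Finsupp.le_def]
    intro P
    have := (mem_riemannRochSpace_iff.mp hxD P).resolve_left hx0
    rw [Finsupp.add_apply, hDx P]
    simp only [Finsupp.coe_zero, Pi.zero_apply]
    omega
  have h1 := Finsupp.le_def.mp (mapDomain_nonneg' (rOf H) hle) Q
  rw [Finsupp.mapDomain_add, Finsupp.add_apply, mapDomain_rOf_principal H hx hDx Q] at h1
  simp only [Finsupp.coe_zero, Pi.zero_apply] at h1
  omega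

omit [FiniteResidues k Ft] [HasPrincipalDivisors k Ft] [Nonempty (Place k Ft)] [Infinite k] in
/-- `dim_k red (L(D) ∩ Rw) = dim_K L(D)` for EVERY divisor `D`. -/
theorem finrank_redSpace_eq (H : LSpaceHyp R g c) (D : Divisor K F) :
    finrank k (redSpace R D) = finrank K (riemannRochSpace D) := by
  classical
  by_cases hbot : riemannRochSpace D = ⊥
  · have hred : redSpace R D = ⊥ := by
      rw [eq_bot_iff]
      rintro xt ⟨x, hxD, rfl⟩
      rw [hbot, Submodule.mem_bot] at hxD
      rw [Submodule.mem_bot, show x = 0 from Subtype.ext hxD, map_zero]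
    rw [hbot, hred, finrank_bot, finrank_bot]
  · obtain ⟨h, hhD, hh0⟩ := (Submodule.ne_bot_iff _).mp hbot
    obtain ⟨a, ha0, hmem, hred⟩ := exists_unit_smul H hh0
    set y : R.Rw := ⟨algebraMap K F a * h, hmem⟩ with hy
    have hyD : (y : F) ∈ riemannRochSpace D := by
      have := (riemannRochSpace D).smul_mem a hhD
      rwa [Algebra.smul_def] at this
    have hy0 : (y : F) ≠ 0 := fun h0 => hred (by rw [show y = 0 from Subtype.ext h0, map_zero])
    obtain ⟨Dy, hDy, -⟩ := HasPrincipalDivisors.exists_divisor (K := K) (y : F) hy0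
    have hle : 0 ≤ D + Dy := by
      rw [Finsupp.le_def]
      intro P
      have := (mem_riemannRochSpace_iff.mp hyD P).resolve_left hy0
      rw [Finsupp.add_apply, hDy P]
      simp only [Finsupp.coe_zero, Pi.zero_apply]
      omega
    have h1 : finrank k (redSpace R D) = finrank k (redSpace R (D + Dy)) :=
      finrank_eq_of_mul_iff (R.red y) hred fun xt => mul_mem_redSpace_iff hred hDy D xt
    have h2 : finrank K (riemannRochSpace D) = finrank K (riemannRochSpace (D + Dy)) :=
      finrank_eq_of_mul_iff (y : F) hy0 fun x => by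
        have := mul_mem_riemannRochSpace_iff hy0 hDy (D + Dy) x
        rwa [add_sub_cancel_right] at this
    rw [h1, h2, H.orth _ hle]

/-- **semicontinuity**: `l(D) ≤ l(r_* D)` for EVERY divisor `D`. -/
theorem finrank_le_mapDomain (H : LSpaceHyp R g c) (D : Divisor K F) :
    finrank K (riemannRochSpace D) ≤
      finrank k (riemannRochSpace (Finsupp.mapDomain (rOf H) D)) := by
  rw [← finrank_redSpace_eq H D]
  exact Submodule.finrank_mono (redSpace_le H D)

omit [FiniteResidues k Ft] [HasPrincipalDivisors k Ft] [Nonempty (Place k Ft)] [Infinite k] in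
/-- **Riemann's inequality** for EVERY divisor, from `rrF` in large degree. -/
theorem riemann_ineq (H : LSpaceHyp R g c) (D : Divisor K F) :
    Divisor.degree D + 1 - g ≤ (finrank K (riemannRochSpace D) : ℤ) := by
  by_cases hc : c ≤ Divisor.degree D
  · rw [H.rrF D hc]
  · push Not at hc
    obtain ⟨P₀⟩ := ‹Nonempty (Place K F)›
    set n : ℕ := (c - Divisor.degree D).toNat with hn
    have hnc : (n : ℤ) = c - Divisor.degree D := Int.toNat_of_nonneg (by omega)
    have hdeg : Divisor.degree (D + Finsupp.single P₀ (n : ℤ)) = c := by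
      rw [map_add, Divisor.degree_single, H.degF P₀]; push_cast; omega
    have h1 := H.rrF _ (le_of_eq hdeg.symm)
    have h2 := (finite_add_single D P₀ n).2
    rw [H.degF P₀, mul_one] at h2
    have h3 : (finrank K (riemannRochSpace (D + Finsupp.single P₀ (n : ℤ))) : ℤ) ≤
        (finrank K (riemannRochSpace D) : ℤ) + n := by exact_mod_cast h2
    rw [hdeg] at h1
    omega

end Fermat.Agent.GH.L
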