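/-
GATE-H (S19) / node L, file 2 (helper38): values at chart parameters and SUPPLY OF CHART POINTS,
in the vocabulary of `GH/Vocab.lean`.

* `valuation_lt_one_iff_ord_pos`, `exists_valueAt`, `valueAt_unique` : `ValueAt` at places of degree one;
* `ord_le_of_no_pole`           : zero count on a residue disc (fibre formula);
* `valuation_lt_one_of_valueAt` : the value of a chart parameter at a point of its disc lies in the
                                  maximal ideal of `R.A`;
* `exists_liftDiv`              : every divisor of the special fibre lifts (same degree, support in the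
                                  chosen discs);
* `exists_param`                : every special place `Q` has a parameter `t ∈ Odisc H Q` with
                                  `ord_Q (red t) = 1`;
* `exists_chartPt`              : `Nonempty (ChartPt H Q)`;
* `chartSupply_of_nonspecial`   : `ChartSupply H n` from the special-fibre genericity statement (node G).
-/
import Mathlib
import Fermat.Agent.GH.Vocab
import Fermat.Agent.GH.L.Semicont
import Fermat.Agent.S24.PlaceBasic

set_option autoImplicit false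

noncomputable section

open AlgebraicCurve Module

namespace Fermat.Agent.GH.L

open Fermat.Agent.RRh45 Fermat.Agent.GJ.S37MinDiv Fermat.Agent.GJ.J1 Fermat.Agent.GJ.S37LSpace
  Fermat.Agent.GJ.S37ROfSurj Fermat.Agent.GJ.Ortho Fermat.Agent.S24 Fermat.Agent.GH

variable {K F k Ft : Type*} [Field K] [Field F] [Algebra K F] [Field k] [Field Ft] [Algebra k Ft]

/-! ### `ValueAt` at places of degree one -/

theorem valuation_lt_one_iff_ord_pos (P : Place K F) {x : F} (hx : x ≠ 0) :
    P.toValuationSubring.valuation x < 1 ↔ 0 < P.ord x := by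
  have h1 : P.toValuationSubring.valuation x < 1 ↔ x⁻¹ ∉ P.toValuationSubring := by
    have hv : P.toValuationSubring.valuation x ≠ 0 := (Valuation.ne_zero_iff _).mpr hx
    rw [← ValuationSubring.valuation_le_one_iff, map_inv₀, not_le,
      one_lt_inv₀ (zero_lt_iff.mpr hv)]
  have h2 : 0 < P.ord x ↔ x⁻¹ ∉ P.toValuationSubring := by
    rw [← PlaceB.ord_nonneg_iff P (inv_ne_zero hx), Place.ord_inv]
    omega
  rw [h1, h2]

theorem valuation_algebraMap_eq_one (P : Place K F) {b : K} (hb : b ≠ 0) :
    P.toValuationSubring.valuation (algebraMap K F b) = 1 := by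
  have h1 : P.toValuationSubring.valuation (algebraMap K F b) ≤ 1 :=
    (ValuationSubring.valuation_le_one_iff _ _).mpr (P.algebraMap_mem' b)
  have h2 : P.toValuationSubring.valuation (algebraMap K F b⁻¹) ≤ 1 :=
    (ValuationSubring.valuation_le_one_iff _ _).mpr (P.algebraMap_mem' b⁻¹)
  have hbF : algebraMap K F b ≠ 0 := (map_ne_zero_iff _ (algebraMap K F).injective).mpr hb
  have hv : P.toValuationSubring.valuation (algebraMap K F b) ≠ 0 :=
    (Valuation.ne_zero_iff _).mpr hbF
  rw [map_inv₀, map_inv₀, inv_le_one₀ (zero_lt_iff.mpr hv)] at h2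
  exact le_antisymm h1 h2

/-- at a place of degree one every function regular there has a value in `K`. -/
theorem exists_valueAt {P : Place K F} (hdeg : P.deg = 1) {e : F}
    (he : e ∈ P.toValuationSubring) : ∃ a : K, ValueAt P e a := by
  have h1 : finrank K P.ResidueField = 1 := hdeg
  have hbot : (⊥ : Subalgebra K P.ResidueField) = ⊤ :=
    Subalgebra.bot_eq_top_of_finrank_eq_one h1
  have hmem : IsLocalRing.residue P.toValuationSubring ⟨e, he⟩ ∈
      (⊥ : Subalgebra K P.ResidueField) := by rw [hbot]; exact Algebra.mem_top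
  obtain ⟨a, ha⟩ := Algebra.mem_bot.mp hmem
  refine ⟨a, ?_⟩
  have h2 : IsLocalRing.residue P.toValuationSubring
      (⟨e, he⟩ - algebraMap K P.toValuationSubring a) = 0 := by
    rw [map_sub, ← ha]
    exact sub_eq_zero.mpr rfl
  rw [IsLocalRing.residue_eq_zero_iff, ← ValuationSubring.coe_mem_nonunits_iff,
    ValuationSubring.mem_nonunits_iff] at h2
  exact h2

theorem valueAt_unique {P : Place K F} {e : F} {a a' : K} (ha : ValueAt P e a)
    (ha' : ValueAt P e a') : a = a' := by
  by_contra hne
  have hb : a - a' ≠ 0 := sub_ne_zero.mpr hne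
  have h1 := valuation_algebraMap_eq_one P hb
  have h2 : algebraMap K F (a - a') = (e - algebraMap K F a') - (e - algebraMap K F a) := by
    rw [map_sub]; ring
  rw [h2] at h1
  have h3 := Valuation.map_sub P.toValuationSubring.valuation (e - algebraMap K F a')
    (e - algebraMap K F a)
  rw [h1] at h3
  rcases le_max_iff.mp h3 with h | h
  · exact absurd ha' (not_lt.mpr h)
  · exact absurd ha (not_lt.mpr h)

theorem valueAt_zero_of_ord_pos {P : Place K F} {e : F} (h : 0 < P.ord e) : ValueAt P e 0 := by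
  have he : e ≠ 0 := by rintro rfl; simp at h
  rw [ValueAt, map_zero, sub_zero]
  exact (valuation_lt_one_iff_ord_pos P he).mpr h

theorem ord_sub_pos_of_valueAt {P : Place K F} {e : F} {a : K} (h : ValueAt P e a)
    (hne : e - algebraMap K F a ≠ 0) : 0 < P.ord (e - algebraMap K F a) :=
  (valuation_lt_one_iff_ord_pos P hne).mp h

/-- `ord (f - c) = 0` if `f` vanishes at the place and `c` is a unit there. -/
theorem ord_sub_eq_zero_of_pos (Q : Place K F) {f cst : F} (hf : 0 < Q.ord f) (hc0 : cst ≠ 0)
    (hc : Q.ord cst = 0) : f - cst ≠ 0 ∧ Q.ord (f - cst) = 0 := by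
  have hf0 : f ≠ 0 := by rintro rfl; simp at hf
  have hne : f - cst ≠ 0 := by
    intro h
    rw [sub_eq_zero.mp h, hc] at hf
    exact lt_irrefl _ hf
  refine ⟨hne, le_antisymm ?_ ?_⟩
  · by_contra hpos
    push Not at hpos
    have hsum : f + -(f - cst) = cst := by ring
    have := PlaceB.ord_add_ge Q hf0 (neg_ne_zero.mpr hne) (by rw [hsum]; exact hc0)
    rw [hsum, PlaceB.ord_neg, hc] at this
    have := min_le_iff.mp this
    omega
  · have := PlaceB.ord_add_ge Q hf0 (neg_ne_zero.mpr hc0) (by rwa [← sub_eq_add_neg])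
    rw [PlaceB.ord_neg, hc, ← sub_eq_add_neg] at this
    have h2 := le_min hf.le (le_refl (0 : ℤ))
    exact h2.trans this

variable {R : RedData K F k Ft} {g c : ℤ}
variable [FiniteResidues K F] [HasPrincipalDivisors K F] [Nonempty (Place K F)]
variable [FiniteResidues k Ft] [HasPrincipalDivisors k Ft] [Nonempty (Place k Ft)]
variable [Infinite k]

/-! ### Zero count on a residue disc -/

/-- a Gauss-integral function with nonzero reduction and no pole on the disc of `Q` has at most
`ord_Q (red y)` zeros (with multiplicity) at each point of the disc. -/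
theorem ord_le_of_no_pole (H : LSpaceHyp R g c) {y : R.Rw} (hy : R.red y ≠ 0) {Q : Place k Ft}
    (hpole : ∀ P ∈ disc H Q, 0 ≤ P.ord (y : F)) {P : Place K F} (hP : P ∈ disc H Q) :
    P.ord (y : F) ≤ Q.ord (R.red y) := by
  classical
  have hy0 : (y : F) ≠ 0 := fun h => hy (by rw [show y = 0 from Subtype.ext h, map_zero])
  obtain ⟨Dy, hDy, -⟩ := HasPrincipalDivisors.exists_divisor (K := K) (y : F) hy0
  rw [ord_red_eq_sum H hy hDy Q]
  by_cases hmem : P ∈ Dy.support.filter (fun P => rOf H P = Q)
  · exact Finset.single_le_sum (f := fun P : Place K F => P.ord (y : F))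
      (fun P' hP' => hpole P' (Finset.mem_filter.mp hP').2) hmem
  · have hPs : P ∉ Dy.support := fun h => hmem (Finset.mem_filter.mpr ⟨h, hP⟩)
    have h0 : P.ord (y : F) = 0 := by rw [← hDy P]; exact Finsupp.notMem_support_iff.mp hPs
    rw [h0]
    exact Finset.sum_nonneg fun P' hP' => hpole P' (Finset.mem_filter.mp hP').2

/-- elements of `Odisc` have no pole on the disc. -/
theorem ord_nonneg_of_mem_Odisc (H : LSpaceHyp R g c) {Q : Place k Ft} {e : F}
    (he : e ∈ Odisc H Q) {P : Place K F} (hP : P ∈ disc H Q) : 0 ≤ P.ord e := by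
  by_cases h0 : e = 0
  · rw [h0, Place.ord_zero]
  · exact (PlaceB.ord_nonneg_iff P h0).mpr (he.2 P hP)

/-- **values of a chart parameter lie in the maximal ideal**: if `t ∈ Odisc H Q` reduces to a
uniformiser at `Q`, `P` is in the disc and `t(P) = a`, then `|a| < 1`. -/
theorem valuation_lt_one_of_valueAt (H : LSpaceHyp R g c) {Q : Place k Ft} {t : F}
    (ht : t ∈ Odisc H Q) (hred : Q.ord (R.red ⟨t, ht.1⟩) = 1) {P : Place K F}
    (hP : P ∈ disc H Q) {a : K} (ha : ValueAt P t a) : R.A.valuation a < 1 := by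
  classical
  by_contra hnot
  rw [not_lt] at hnot
  have ha0 : a ≠ 0 := by
    rintro rfl
    rw [map_zero] at hnot
    exact absurd hnot (not_le.mpr zero_lt_one)
  set tt : R.Rw := ⟨t, ht.1⟩ with htt
  rcases hnot.lt_or_eq with hgt | heq
  · -- `a ∉ A`
    have hainv : R.A.valuation a⁻¹ < 1 := by
      rw [map_inv₀]; exact inv_lt_one_of_one_lt₀ hgt
    have hainvA : a⁻¹ ∈ R.A := (R.A.valuation_le_one_iff _).mp hainv.le
    set b : R.A := ⟨a⁻¹, hainvA⟩ with hb
    have hres : R.res b = 0 :=
      (R.orthoRedSystem.res_ker b).mpr ((R.A.mem_nonunits_iff).mpr hainv)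
    set bb : R.Rw := ⟨algebraMap K F (b : K), (R.mem_A_iff b).1 b.2⟩ with hbb
    set y : R.Rw := 1 - bb * tt with hy
    have hredy : R.red y = 1 := by
      rw [hy, map_sub, map_one, map_mul, hbb, R.red_algebraMap, hres, map_zero, zero_mul, sub_zero]
    have hyne : R.red y ≠ 0 := by rw [hredy]; exact one_ne_zero
    have hyF : (y : F) = 1 - algebraMap K F a⁻¹ * t := rfl
    have hy0 : (y : F) ≠ 0 := fun h => hyne (by rw [show y = 0 from Subtype.ext h, map_zero])
    have hpole : ∀ P' ∈ disc H Q, 0 ≤ P'.ord (y : F) := by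
      intro P' hP'
      refine (PlaceB.ord_nonneg_iff P' hy0).mpr ?_
      rw [hyF]
      exact sub_mem (one_mem _) (mul_mem (P'.algebraMap_mem' _) (ht.2 P' hP'))
    have h1 := ord_le_of_no_pole H hyne hpole hP
    rw [hredy, Place.ord_one] at h1
    have h2 : P.toValuationSubring.valuation (y : F) < 1 := by
      have : (y : F) = -(algebraMap K F a⁻¹ * (t - algebraMap K F a)) := by
        rw [hyF, mul_sub, ← map_mul, inv_mul_cancel₀ ha0, map_one]; ring
      rw [this, Valuation.map_neg, map_mul, valuation_algebraMap_eq_one P (inv_ne_zero ha0),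
        one_mul]
      exact ha
    have h3 := (valuation_lt_one_iff_ord_pos P hy0).mp h2
    omega
  · -- `a` is a unit of `A`
    have haA : a ∈ R.A := (R.A.valuation_le_one_iff _).mp (le_of_eq heq.symm)
    set b : R.A := ⟨a, haA⟩ with hb
    have hres : R.res b ≠ 0 := by
      intro h
      have := (R.orthoRedSystem.res_ker b).mp h
      rw [R.A.mem_nonunits_iff, ← heq] at this
      exact lt_irrefl _ this
    set bb : R.Rw := ⟨algebraMap K F (b : K), (R.mem_A_iff b).1 b.2⟩ with hbb
    set y : R.Rw := tt - bb with hy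
    have hredy : R.red y = R.red tt - algebraMap k Ft (R.res b) := by
      rw [hy, map_sub, hbb, R.red_algebraMap]
    have hcst : algebraMap k Ft (R.res b) ≠ 0 :=
      (map_ne_zero_iff _ (algebraMap k Ft).injective).mpr hres
    obtain ⟨hyne', hord0⟩ := ord_sub_eq_zero_of_pos Q (f := R.red tt)
      (by rw [hred]; exact one_pos) hcst (PlaceB.ord_algebraMap Q hres)
    rw [← hredy] at hyne' hord0
    have hyF : (y : F) = t - algebraMap K F a := rfl
    have hy0 : (y : F) ≠ 0 := fun h => hyne' (by rw [show y = 0 from Subtype.ext h, map_zero])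
    have hpole : ∀ P' ∈ disc H Q, 0 ≤ P'.ord (y : F) := by
      intro P' hP'
      refine (PlaceB.ord_nonneg_iff P' hy0).mpr ?_
      rw [hyF]
      exact sub_mem (ht.2 P' hP') (P'.algebraMap_mem' _)
    have h1 := ord_le_of_no_pole H hyne' hpole hP
    rw [hord0] at h1
    have h3 := (valuation_lt_one_iff_ord_pos P hy0).mp (by rw [hyF]; exact ha)
    omega

/-! ### Lifting divisors and parameters -/

omit [FiniteResidues k Ft] [HasPrincipalDivisors k Ft] [Nonempty (Place k Ft)] [Infinite k] in
theorem posPart_sub_negPart' (D : Divisor k Ft) : (D ⊔ 0) - ((-D) ⊔ 0) = D := by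
  ext Q
  rw [Finsupp.sub_apply, Finsupp.sup_apply, Finsupp.sup_apply, Finsupp.neg_apply]
  simp only [Finsupp.coe_zero, Pi.zero_apply]
  rcases le_total (D Q) 0 with h | h
  · rw [sup_eq_right.mpr h, sup_eq_left.mpr (by omega : (0 : ℤ) ≤ -D Q)]; omega
  · rw [sup_eq_left.mpr h, sup_eq_right.mpr (by omega : -D Q ≤ (0 : ℤ))]; omega

/-- **(L-iii)** every divisor of the special fibre lifts to a divisor of the same degree, effective
if the given one is, and vanishing on the discs of the places outside its support. -/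
theorem exists_liftDiv (H : LSpaceHyp R g c) (Et : Divisor k Ft) :
    ∃ E : Divisor K F, Finsupp.mapDomain (rOf H) E = Et ∧ Divisor.degree E = Divisor.degree Et ∧
      (0 ≤ Et → 0 ≤ E) ∧ ∀ P : Place K F, Et (rOf H P) = 0 → E P = 0 := by
  classical
  choose s hs using rOf_surjective H
  refine ⟨Finsupp.mapDomain s Et, ?_, degree_mapDomain' s H.degFt H.degF Et,
    fun h => mapDomain_nonneg' s h, fun P hP => ?_⟩
  · rw [← Finsupp.mapDomain_comp]
    have : rOf H ∘ s = id := funext hs
    rw [this, Finsupp.mapDomain_id]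
  · rw [mapDomain_apply_eq_sum]
    refine Finset.sum_eq_zero fun Q' hQ' => ?_
    obtain ⟨-, hQ'P⟩ := Finset.mem_filter.mp hQ'
    rw [← hs Q', hQ'P]
    exact hP

/-- **(L-i)** every special place has a parameter: `t ∈ Odisc H Q` whose reduction is a uniformiser
at `Q`. -/
theorem exists_param (H : LSpaceHyp R g c) (Q : Place k Ft) :
    ∃ t : F, ∃ ht : t ∈ Odisc H Q, Q.ord (R.red ⟨t, ht.1⟩) = 1 := by
  classical
  have hc := H.c_nonneg
  obtain ⟨π, hπ⟩ := IsDiscreteValuationRing.exists_irreducible Q.toValuationSubring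
  have hord : Q.ord (π : Ft) = 1 := Q.ord_coe_irreducible hπ
  have hπ0 : (π : Ft) ≠ 0 := fun h => by rw [h, Place.ord_zero] at hord; omega
  obtain ⟨Dπ, hDπ, hdegπ⟩ := HasPrincipalDivisors.exists_divisor (K := k) (π : Ft) hπ0
  set Et : Divisor k Ft := (-Dπ) ⊔ 0 with hEt
  have hEt0 : 0 ≤ Et := le_sup_right
  have hπE : (π : Ft) ∈ riemannRochSpace Et := mem_riemannRochSpace_neg_sup_zero hDπ
  have hEtQ : Et Q = 0 := by
    rw [hEt, Finsupp.sup_apply, Finsupp.neg_apply, hDπ Q, hord]
    simp
  have hdegEt : 1 ≤ Divisor.degree Et := by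
    have h1 : Divisor.degree (Dπ ⊔ 0) = Divisor.degree Et := by
      have := congrArg Divisor.degree (posPart_sub_negPart' Dπ)
      rw [map_sub, hdegπ] at this
      rw [hEt]; omega
    have h2 : Finsupp.single Q (1 : ℤ) ≤ Dπ ⊔ 0 := by
      rw [Finsupp.le_def]
      intro Q'
      rw [Finsupp.sup_apply]
      by_cases hQ' : Q' = Q
      · subst hQ'
        rw [Finsupp.single_eq_same, hDπ Q', hord]
        exact le_sup_left
      · rw [Finsupp.single_eq_of_ne hQ']
        exact le_sup_right
    have h3 := degree_mono h2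
    rw [Divisor.degree_single, H.degFt Q, h1] at h3
    simpa using h3
  obtain ⟨E₀, hE₀map, hE₀deg, hE₀nonneg, hE₀supp⟩ := exists_liftDiv H Et
  have hE₀0 : 0 ≤ E₀ := hE₀nonneg hEt0
  set N : ℕ := (c + 1).toNat with hN
  have hNc : (N : ℤ) = c + 1 := Int.toNat_of_nonneg (by omega)
  have hN1 : 1 ≤ N := by
    have : (1 : ℤ) ≤ (N : ℤ) := by omega
    exact_mod_cast this
  set E : Divisor K F := N • E₀ with hE
  have hE0 : 0 ≤ E := nsmul_nonneg hE₀0 N
  have hEdeg : c + 1 ≤ Divisor.degree E := by
    rw [hE, map_nsmul, hE₀deg, nsmul_eq_mul, ← hNc]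
    nlinarith
  have hEmap : Finsupp.mapDomain (rOf H) E = N • Et := by
    rw [hE, Finsupp.mapDomain_smul, hE₀map]
  have hEtle : Et ≤ N • Et := by
    obtain ⟨N', hN'⟩ : ∃ N', N = N' + 1 := ⟨N - 1, by omega⟩
    rw [hN', succ_nsmul]
    exact le_add_of_nonneg_left (nsmul_nonneg hEt0 N')
  have hπmem : (π : Ft) ∈ redSpace R E := by
    rw [(redSpace_eq H hE0 hEdeg).2.2, hEmap]
    exact riemannRochSpace_mono hEtle hπE
  obtain ⟨t, htE, htπ⟩ := hπmem
  have ht0 : (t : F) ≠ 0 := fun h => hπ0 (by rw [← htπ, show t = 0 from Subtype.ext h, map_zero])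
  have htO : (t : F) ∈ Odisc H Q := by
    refine ⟨t.2, fun P hP => ?_⟩
    have h1 := (mem_riemannRochSpace_iff.mp htE P).resolve_left ht0
    have h2 : E P = 0 := by
      rw [hE, Finsupp.smul_apply, hE₀supp P (by rw [show rOf H P = Q from hP]; exact hEtQ),
        smul_zero]
    rw [h2, neg_zero] at h1
    exact (PlaceB.ord_nonneg_iff P ht0).mp h1
  refine ⟨(t : F), htO, ?_⟩
  have : (⟨(t : F), htO.1⟩ : R.Rw) = t := rfl
  rw [this, htπ, hord]

/-- **chart points exist** over every special place. -/
theorem exists_chartPt (H : LSpaceHyp R g c) (Q : Place k Ft) : Nonempty (ChartPt H Q) := by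
  obtain ⟨t, ht, hred⟩ := exists_param H Q
  have hy0 : R.red ⟨t, ht.1⟩ ≠ 0 := by
    intro h
    rw [h, Place.ord_zero] at hred
    omega
  obtain ⟨P, hPpos, hPQ⟩ := exists_rOf_eq_of_ord_pos H hy0 (Q := Q) (by rw [hred]; exact one_pos)
  exact ⟨⟨P, hPQ, t, ht, valueAt_zero_of_ord_pos hPpos, hred⟩⟩

/-- **supply of charts** from the special-fibre genericity statement of node G: reduced
non-special families of `n` special places off any finite set. -/
theorem chartSupply_of_nonspecial (H : LSpaceHyp R g c) (n : ℕ)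
    (hG : ∀ S : Finset (Place k Ft), ∃ Q : Fin n → Place k Ft, Function.Injective Q ∧
      (∀ i, Q i ∉ S) ∧
      finrank k (riemannRochSpace (∑ i, Finsupp.single (Q i) (1 : ℤ))) = 1) :
    ChartSupply H n := by
  intro S
  obtain ⟨Q, hQinj, hQS, hns⟩ := hG S
  exact ⟨⟨Q, hQinj, fun i => (exists_chartPt H (Q i)).some, hns⟩, hQS⟩

end Fermat.Agent.GH.L
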