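/-
GATE-H (S19) / node L, file 3 (helper38): the contract `CoordSpec H n` of `GH/Vocab.lean`
(coordinates on the kernel of reduction) for `n = g`.

* `eq_of_principal_sub`            : RIGIDITY — effective `D ~ D'` with `l(r_* D') = 1` are equal
                                     (semicontinuity);
* `exists_points_of_mapDomain_eq`  : SHAPE — an effective divisor reducing to a reduced divisor
                                     `Σ Q_i` is `Σ P_i` with exactly one `P_i` in each disc;
* `exists_effective_rep`           : EXISTENCE — a class with principal reduction, shifted by `D0`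
                                     with `r_* D0` non-special of degree `≥ g`, has an effective
                                     representative reducing to `r_* D0` (Riemann's inequality +
                                     unramifiedness);
* `coordSpec`                      : `(n : ℤ) = g → CoordSpec H n`.
-/
import Mathlib
import Fermat.Agent.GH.Vocab
import Fermat.Agent.GH.L.ChartPt

set_option autoImplicit false

noncomputable section

open AlgebraicCurve Module

namespace Fermat.Agent.GH.L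

open Fermat.Agent.RRh45 Fermat.Agent.GJ.S37MinDiv Fermat.Agent.GJ.J1 Fermat.Agent.GJ.S37LSpace
  Fermat.Agent.GJ.S37ROfSurj Fermat.Agent.GJ.Ortho Fermat.Agent.S24 Fermat.Agent.GH

variable {K F k Ft : Type*} [Field K] [Field F] [Algebra K F] [Field k] [Field Ft] [Algebra k Ft]
theorem sum_single_nonneg' {n : ℕ}
    (P : Fin n → Place K F) : (0 : Divisor K F) ≤ ∑ i, Finsupp.single (P i) (1 : ℤ) :=
  Finset.sum_nonneg fun _ _ => Finsupp.single_nonneg.mpr zero_le_one

theorem degree_sum_single'
    (hdeg : ∀ P : Place K F, P.deg = 1) {n : ℕ} (P : Fin n → Place K F) :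
    Divisor.degree (∑ i, Finsupp.single (P i) (1 : ℤ)) = n := by
  rw [map_sum]
  simp [Divisor.degree_single, hdeg]

theorem sum_single_apply_pos {n : ℕ}
    (P : Fin n → Place K F) (i : Fin n) :
    1 ≤ (∑ j, Finsupp.single (P j) (1 : ℤ)) (P i) := by
  classical
  rw [Finsupp.finsetSum_apply]
  have h1 : Finsupp.single (P i) (1 : ℤ) (P i) ≤ ∑ j, Finsupp.single (P j) (1 : ℤ) (P i) :=
    Finset.single_le_sum (f := fun j => Finsupp.single (P j) (1 : ℤ) (P i))
      (fun j _ => by
        rw [Finsupp.single_apply]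
        split_ifs <;> norm_num)
      (Finset.mem_univ i)
  rwa [Finsupp.single_eq_same] at h1

theorem exists_eq_of_sum_single_apply_pos {n : ℕ}
    (P : Fin n → Place K F) {P₀ : Place K F}
    (h : 0 < (∑ j, Finsupp.single (P j) (1 : ℤ)) P₀) : ∃ j, P j = P₀ := by
  classical
  by_contra hcon
  push Not at hcon
  rw [Finsupp.finsetSum_apply, Finset.sum_eq_zero] at h
  · exact lt_irrefl _ h
  · intro j _
    exact Finsupp.single_eq_of_ne (Ne.symm (hcon j))

variable {R : RedData K F k Ft} {g c : ℤ}
variable [FiniteResidues K F] [HasPrincipalDivisors K F] [Nonempty (Place K F)]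
variable [FiniteResidues k Ft] [HasPrincipalDivisors k Ft] [Nonempty (Place k Ft)]
variable [Infinite k]

theorem mapDomain_sum_single (H : LSpaceHyp R g c) {n : ℕ} (Pτ : Fin n → Place K F)
    (Q : Fin n → Place k Ft) (h : ∀ i, rOf H (Pτ i) = Q i) :
    Finsupp.mapDomain (rOf H) (∑ i, Finsupp.single (Pτ i) (1 : ℤ)) =
      ∑ i, Finsupp.single (Q i) (1 : ℤ) := by
  rw [Finsupp.mapDomain_finsetSum]
  exact Finset.sum_congr rfl fun i _ => by rw [Finsupp.mapDomain_single, h i]

/-! ### Rigidity -/

/-- **rigidity**: two linearly equivalent effective divisors, one of which has non-special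
reduction (`l(r_* D') = 1`), are equal. -/
theorem eq_of_principal_sub (H : LSpaceHyp R g c) {D D' : Divisor K F} (hD : 0 ≤ D) (hD' : 0 ≤ D')
    (h1 : finrank k (riemannRochSpace (Finsupp.mapDomain (rOf H) D')) = 1)
    (hp : Divisor.IsPrincipal (D - D')) : D = D' := by
  obtain ⟨h, hh0, hh⟩ := hp
  have hmem : h ∈ riemannRochSpace D' := by
    rw [mem_riemannRochSpace_iff]
    intro P
    right
    have h2 := hh P
    rw [Finsupp.sub_apply] at h2
    have h3 := Finsupp.le_def.mp hD P
    simp only [Finsupp.coe_zero, Pi.zero_apply] at h3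
    omega
  have hone : (1 : F) ∈ riemannRochSpace D' := one_mem_riemannRochSpace hD'
  have hle := finrank_le_mapDomain H D'
  rw [h1] at hle
  have hone' : (⟨1, hone⟩ : riemannRochSpace D') ≠ 0 :=
    fun h0 => one_ne_zero (congrArg Subtype.val h0)
  have hpos : 0 < finrank K (riemannRochSpace D') := by
    have : Nontrivial (riemannRochSpace D') := ⟨⟨⟨1, hone⟩, 0, hone'⟩⟩
    exact Module.finrank_pos
  have hfr : finrank K (riemannRochSpace D') = 1 := by omega
  obtain ⟨a, ha⟩ := (finrank_eq_one_iff_of_nonzero' _ hone').mp hfr ⟨h, hmem⟩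
  have hha : h = algebraMap K F a := by
    have := congrArg Subtype.val ha
    simpa [Algebra.smul_def] using this.symm
  have ha0 : a ≠ 0 := by
    rintro rfl
    rw [map_zero] at hha
    exact hh0 hha
  have hzero : D - D' = 0 := by
    ext P
    rw [hh P, hha, PlaceB.ord_algebraMap P ha0]
    rfl
  exact sub_eq_zero.mp hzero

/-! ### Shape -/

/-- **shape**: an effective divisor whose reduction is the reduced divisor `Σ Q_i` (`Q` injective)
is `Σ P_i` with `P_i` in the disc of `Q_i`. -/
theorem exists_points_of_mapDomain_eq (H : LSpaceHyp R g c) {n : ℕ} {Q : Fin n → Place k Ft}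
    (hQ : Function.Injective Q) {D : Divisor K F} (hD : 0 ≤ D)
    (hmap : Finsupp.mapDomain (rOf H) D = ∑ i, Finsupp.single (Q i) (1 : ℤ)) :
    ∃ Pτ : Fin n → Place K F, (∀ i, rOf H (Pτ i) = Q i) ∧
      D = ∑ i, Finsupp.single (Pτ i) (1 : ℤ) := by
  classical
  have hex : ∀ i, ∃ P : Place K F, rOf H P = Q i ∧ 1 ≤ D P := by
    intro i
    have h1 : 1 ≤ Finsupp.mapDomain (rOf H) D (Q i) := by
      rw [hmap]; exact sum_single_apply_pos Q i
    rw [mapDomain_apply_eq_sum] at h1
    by_contra hcon
    push Not at hcon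
    have : ∑ P ∈ D.support.filter (fun P => rOf H P = Q i), D P = 0 :=
      Finset.sum_eq_zero fun P hP => by
        have h2 := hcon P (Finset.mem_filter.mp hP).2
        have h3 := Finsupp.le_def.mp hD P
        simp only [Finsupp.coe_zero, Pi.zero_apply] at h3
        omega
    omega
  choose Pτ hPτ hPτ1 using hex
  have hinj : Function.Injective Pτ := fun i j hij => hQ (by rw [← hPτ i, ← hPτ j, hij])
  refine ⟨Pτ, hPτ, ?_⟩
  symm
  apply eq_of_le_of_degree_eq
  · rw [Finsupp.le_def]
    intro P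
    rw [Finsupp.finsetSum_apply]
    by_cases hP : ∃ i, Pτ i = P
    · obtain ⟨i, rfl⟩ := hP
      rw [Finset.sum_eq_single i]
      · rw [Finsupp.single_eq_same]; exact hPτ1 i
      · intro j _ hji
        exact Finsupp.single_eq_of_ne (fun h => hji (hinj h.symm))
      · intro h; exact absurd (Finset.mem_univ i) h
    · push Not at hP
      rw [Finset.sum_eq_zero]
      · have := Finsupp.le_def.mp hD P
        simpa using this
      · intro j _
        exact Finsupp.single_eq_of_ne (Ne.symm (hP j))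
  · rw [← degree_mapDomain' (rOf H) H.degF H.degFt D, hmap, degree_sum_single' H.degF,
      degree_sum_single' H.degFt]

/-! ### Existence -/

/-- **existence**: if `r_* X` is principal, `r_* D0 = D0t` is effective with `l(D0t) = 1` and
`deg (X + D0) ≥ g`, there is an effective `D ~ X + D0` with `r_* D = D0t`. -/
theorem exists_effective_rep (H : LSpaceHyp R g c) {X D0 : Divisor K F} {D0t : Divisor k Ft}
    (hX : Divisor.IsPrincipal (Finsupp.mapDomain (rOf H) X))
    (hD0map : Finsupp.mapDomain (rOf H) D0 = D0t) (hD0t : 0 ≤ D0t)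
    (hns : finrank k (riemannRochSpace D0t) = 1) (hdeg : g ≤ Divisor.degree (X + D0)) :
    ∃ D : Divisor K F, 0 ≤ D ∧ Divisor.IsPrincipal (D - (X + D0)) ∧
      Finsupp.mapDomain (rOf H) D = D0t := by
  classical
  have hri := riemann_ineq H (X + D0)
  have hpos : 0 < finrank K (riemannRochSpace (X + D0)) := by
    have : (0 : ℤ) < (finrank K (riemannRochSpace (X + D0)) : ℤ) := by omega
    exact_mod_cast this
  have hbot : riemannRochSpace (X + D0) ≠ ⊥ := by
    intro h
    rw [h, finrank_bot] at hpos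
    exact lt_irrefl _ hpos
  obtain ⟨h, hhD, hh0⟩ := (Submodule.ne_bot_iff _).mp hbot
  obtain ⟨a, ha0, hmem, hred⟩ := exists_unit_smul H hh0
  set y : R.Rw := ⟨algebraMap K F a * h, hmem⟩ with hy
  have hyD : (y : F) ∈ riemannRochSpace (X + D0) := by
    have := (riemannRochSpace (X + D0)).smul_mem a hhD
    rwa [Algebra.smul_def] at this
  have hy0 : (y : F) ≠ 0 := fun h0 => hred (by rw [show y = 0 from Subtype.ext h0, map_zero])
  obtain ⟨Dy, hDy, -⟩ := HasPrincipalDivisors.exists_divisor (K := K) (y : F) hy0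
  have hle : 0 ≤ X + D0 + Dy := by
    rw [Finsupp.le_def]
    intro P
    have := (mem_riemannRochSpace_iff.mp hyD P).resolve_left hy0
    rw [Finsupp.add_apply, hDy P]
    simp only [Finsupp.coe_zero, Pi.zero_apply]
    omega
  refine ⟨X + D0 + Dy, hle, ⟨(y : F), hy0, fun P => by rw [add_sub_cancel_left, hDy P]⟩, ?_⟩
  obtain ⟨ft, hft0, hft⟩ := hX
  set φ : Ft := ft * R.red y with hφ
  have hφ0 : φ ≠ 0 := mul_ne_zero hft0 hred
  have hordφ : ∀ Q : Place k Ft, Q.ord φ =
      Finsupp.mapDomain (rOf H) X Q + Finsupp.mapDomain (rOf H) Dy Q := by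
    intro Q
    rw [hφ, Q.ord_mul hft0 hred, hft Q, mapDomain_rOf_principal H hred hDy Q]
  have hmapD : Finsupp.mapDomain (rOf H) (X + D0 + Dy) =
      Finsupp.mapDomain (rOf H) X + D0t + Finsupp.mapDomain (rOf H) Dy := by
    rw [Finsupp.mapDomain_add, Finsupp.mapDomain_add, hD0map]
  have hnn := mapDomain_nonneg' (rOf H) hle
  rw [hmapD] at hnn
  have hφmem : φ ∈ riemannRochSpace D0t := by
    rw [mem_riemannRochSpace_iff]
    intro Q
    right
    have h2 := Finsupp.le_def.mp hnn Q
    rw [Finsupp.add_apply, Finsupp.add_apply] at h2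
    simp only [Finsupp.coe_zero, Pi.zero_apply] at h2
    rw [hordφ Q]
    omega
  have hone : (1 : Ft) ∈ riemannRochSpace D0t := one_mem_riemannRochSpace hD0t
  have hone' : (⟨1, hone⟩ : riemannRochSpace D0t) ≠ 0 :=
    fun h0 => one_ne_zero (congrArg Subtype.val h0)
  obtain ⟨b, hb⟩ := (finrank_eq_one_iff_of_nonzero' _ hone').mp hns ⟨φ, hφmem⟩
  have hφb : φ = algebraMap k Ft b := by
    have := congrArg Subtype.val hb
    simpa [Algebra.smul_def] using this.symm
  have hb0 : b ≠ 0 := by
    rintro rfl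
    rw [map_zero] at hφb
    exact hφ0 hφb
  rw [hmapD]
  ext Q
  have h3 := hordφ Q
  rw [hφb, PlaceB.ord_algebraMap Q hb0] at h3
  rw [Finsupp.add_apply, Finsupp.add_apply]
  omega

/-! ### The contract of node L -/

/-- **CONTRACT of node L**: coordinates on the kernel of reduction exist, are unique and lie in
the maximal ideal of `R.A`, for charts with `n = g` points. -/
theorem coordSpec (H : LSpaceHyp R g c) {n : ℕ} (hn : (n : ℤ) = g) : CoordSpec H n := by
  classical
  intro 𝔠 ξ hξ
  have hD0map : Finsupp.mapDomain (rOf H) 𝔠.D0 = ∑ i, Finsupp.single (𝔠.Q i) (1 : ℤ) :=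
    mapDomain_sum_single H _ _ fun i => (𝔠.pt i).hP
  refine ⟨?_, ?_, ?_⟩
  · -- existence
    obtain ⟨X, hXξ, hXp⟩ := hξ
    have hdegX : Divisor.degree (X : Divisor K F) = 0 := X.2
    have hdegD0 : Divisor.degree 𝔠.D0 = n := degree_sum_single' H.degF _
    obtain ⟨D, hD0, hDp, hDmap⟩ := exists_effective_rep H hXp hD0map (sum_single_nonneg' 𝔠.Q)
      𝔠.hns (by rw [map_add, hdegX, hdegD0, zero_add, hn])
    obtain ⟨Pτ, hPτ, hDsum⟩ := exists_points_of_mapDomain_eq H 𝔠.hQ hD0 hDmap
    have hval : ∀ i, ∃ a : K, ValueAt (Pτ i) (𝔠.pt i).t a := fun i =>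
      exists_valueAt (H.degF _) ((𝔠.pt i).ht.2 (Pτ i) (hPτ i))
    choose τ hτ using hval
    have hdeg : (∑ i, Finsupp.single (Pτ i) (1 : ℤ)) - 𝔠.D0 ∈
        Divisor.degZero (K := K) (F := F) := by
      rw [Divisor.mem_degZero, map_sub, degree_sum_single' H.degF, hdegD0, sub_self]
    refine ⟨τ, Pτ, hPτ, hτ, hdeg, ?_⟩
    rw [← hXξ]
    refine (QuotientAddGroup.eq).mpr ?_
    rw [AddSubgroup.mem_addSubgroupOf, AddSubgroup.coe_add, AddSubgroup.coe_neg]
    have he : -((∑ i, Finsupp.single (Pτ i) (1 : ℤ)) - 𝔠.D0) + (X : Divisor K F) =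
        -(D - ((X : Divisor K F) + 𝔠.D0)) := by
      rw [← hDsum]; abel
    show -((∑ i, Finsupp.single (Pτ i) (1 : ℤ)) - 𝔠.D0) + (X : Divisor K F) ∈ Divisor.principal
    rw [he]
    exact neg_mem hDp
  · -- uniqueness
    rintro τ τ' ⟨Pτ, hP, hv, hdeg, hmk⟩ ⟨Pτ', hP', hv', hdeg', hmk'⟩
    have heq := hmk.trans hmk'.symm
    have hprin := (QuotientAddGroup.eq).mp heq
    rw [AddSubgroup.mem_addSubgroupOf, AddSubgroup.coe_add, AddSubgroup.coe_neg] at hprin
    have hprin' : Divisor.IsPrincipal
        ((∑ i, Finsupp.single (Pτ' i) (1 : ℤ)) - ∑ i, Finsupp.single (Pτ i) (1 : ℤ)) := by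
      have he : (∑ i, Finsupp.single (Pτ' i) (1 : ℤ)) - ∑ i, Finsupp.single (Pτ i) (1 : ℤ) =
          -((∑ i, Finsupp.single (Pτ i) (1 : ℤ)) - 𝔠.D0) +
            ((∑ i, Finsupp.single (Pτ' i) (1 : ℤ)) - 𝔠.D0) := by abel
      rw [he]
      exact hprin
    have hns' : finrank k (riemannRochSpace
        (Finsupp.mapDomain (rOf H) (∑ i, Finsupp.single (Pτ i) (1 : ℤ)))) = 1 := by
      rw [mapDomain_sum_single H Pτ 𝔠.Q hP]; exact 𝔠.hns
    have hDD := eq_of_principal_sub H (sum_single_nonneg' Pτ') (sum_single_nonneg' Pτ) hns' hprin'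
    have hpts : ∀ i, Pτ i = Pτ' i := by
      intro i
      have h1 := sum_single_apply_pos Pτ i
      rw [← hDD] at h1
      obtain ⟨j, hj⟩ := exists_eq_of_sum_single_apply_pos Pτ' (P₀ := Pτ i) (by omega)
      have hji : j = i := 𝔠.hQ (by rw [← hP' j, ← hP i, hj])
      rw [← hj, hji]
    funext i
    exact valueAt_unique (hv i) (by rw [hpts i]; exact hv' i)
  · -- values
    rintro τ ⟨Pτ, hP, hv, -⟩ i
    exact valuation_lt_one_of_valueAt H (𝔠.pt i).ht (𝔠.pt i).hred (hP i) (hv i)

end Fermat.Agent.GH.L
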