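/-
GATE-H (S19) / node L, FINAL PLUG (helper38): the two contracts of `GH/Vocab.lean` owned by node L,
BINDER-FREE over the frame `H : LSpaceHyp R g c`:

* `coordSpec_main`    : `(n : ℤ) = g → CoordSpec H n`      (`GH/L/Coord.lean`);
* `chartSupply_main`  : `(n : ℤ) ≤ g → ChartSupply H n`     (helper87 `G6.chartSupply_of_chartPt` fed with
                         `exists_chartPt` of `GH/L/ChartPt.lean`);
* `exists_charts_disjoint_main` : `m` charts with pairwise disjoint special supports off any finite
                         set (helper87 `G6.exists_charts_disjoint`, same plug) — the shape `AddSpec`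
                         consumes.
-/
import Mathlib
import Fermat.Agent.GH.Vocab
import Fermat.Agent.GH.G6.Supply
import Fermat.Agent.GH.L.Coord

set_option autoImplicit false

noncomputable section

open AlgebraicCurve

namespace Fermat.Agent.GH.L

open Fermat.Agent.RRh45 Fermat.Agent.GJ.S37MinDiv Fermat.Agent.GJ.J1 Fermat.Agent.GJ.S37LSpace
  Fermat.Agent.GJ.S37ROfSurj Fermat.Agent.GH

variable {K F k Ft : Type*} [Field K] [Field F] [Algebra K F] [Field k] [Field Ft] [Algebra k Ft]
variable {R : RedData K F k Ft} {g c : ℤ}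
variable [FiniteResidues K F] [HasPrincipalDivisors K F] [Nonempty (Place K F)]
variable [FiniteResidues k Ft] [HasPrincipalDivisors k Ft] [Nonempty (Place k Ft)]
variable [Infinite k]

/-- **CONTRACT `CoordSpec`** of node L, binder-free. -/
theorem coordSpec_main (H : LSpaceHyp R g c) {n : ℕ} (hn : (n : ℤ) = g) : CoordSpec H n :=
  coordSpec H hn

/-- **CONTRACT `ChartSupply`** of nodes G + L, binder-free. -/
theorem chartSupply_main (H : LSpaceHyp R g c) {n : ℕ} (hn : (n : ℤ) ≤ g) : ChartSupply H n :=
  G6.chartSupply_of_chartPt H n hn (exists_chartPt H)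

/-- `m` charts with pairwise disjoint special supports, off any finite set, binder-free. -/
theorem exists_charts_disjoint_main (H : LSpaceHyp R g c) {n : ℕ} (hn : (n : ℤ) ≤ g)
    (S : Finset (Place k Ft)) (m : ℕ) :
    ∃ 𝔠 : Fin m → Chart H n, (∀ j i, (𝔠 j).Q i ∉ S) ∧
      ∀ j j', j ≠ j' → Disjoint (𝔠 j).supp (𝔠 j').supp :=
  G6.exists_charts_disjoint H n hn (exists_chartPt H) S m

end Fermat.Agent.GH.L
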