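/-
GATE-H (S19) / node L, file 5 (helper38): the contract `CoordInj H n` of `GH/Ord/Main.lean`
(the coordinates determine the class).

* `ord_add_le_of_no_pole` : two-point zero count on a residue disc;
* `eq_of_valueAt_eq`      : (C)-injectivity — a parameter `t ∈ Odisc H Q` with `ord_Q (red t) = 1`
                            separates the points of the disc of `Q`;
* `isCoord_points_unique` : the points `Pτ` of an `IsCoord` witness are determined by `τ`;
* `coordInj_main`         : `CoordInj H n`, binder-free.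
-/
import Mathlib
import Fermat.Agent.GH.Vocab
import Fermat.Agent.GH.Ord.Main
import Fermat.Agent.GH.L.ChartPt

set_option autoImplicit false

noncomputable section

open AlgebraicCurve Module

namespace Fermat.Agent.GH.L

open Fermat.Agent.RRh45 Fermat.Agent.GJ.S37MinDiv Fermat.Agent.GJ.J1 Fermat.Agent.GJ.S37LSpace
  Fermat.Agent.GJ.S37ROfSurj Fermat.Agent.GJ.Ortho Fermat.Agent.S24 Fermat.Agent.GH

section Poly

variable {K F k Ft : Type*} [Field K] [Field F] [Algebra K F] [Field k] [Field Ft] [Algebra k Ft]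
variable {R : RedData K F k Ft} {g c : ℤ}
variable [FiniteResidues K F] [HasPrincipalDivisors K F] [Nonempty (Place K F)]
variable [FiniteResidues k Ft] [HasPrincipalDivisors k Ft] [Nonempty (Place k Ft)]
variable [Infinite k]

/-- two-point zero count: two distinct zeros on a regular disc cost their total multiplicity. -/
theorem ord_add_le_of_no_pole (H : LSpaceHyp R g c) {y : R.Rw} (hy : R.red y ≠ 0) {Q : Place k Ft}
    (hpole : ∀ P ∈ disc H Q, 0 ≤ P.ord (y : F)) {P P' : Place K F} (hP : P ∈ disc H Q)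
    (hP' : P' ∈ disc H Q) (hne : P ≠ P') (h0 : 0 < P.ord (y : F)) (h0' : 0 < P'.ord (y : F)) :
    P.ord (y : F) + P'.ord (y : F) ≤ Q.ord (R.red y) := by
  classical
  have hy0 : (y : F) ≠ 0 := fun h => hy (by rw [show y = 0 from Subtype.ext h, map_zero])
  obtain ⟨Dy, hDy, -⟩ := HasPrincipalDivisors.exists_divisor (K := K) (y : F) hy0
  rw [ord_red_eq_sum H hy hDy Q]
  have hmem : ∀ P₁ : Place K F, P₁ ∈ disc H Q → 0 < P₁.ord (y : F) →
      P₁ ∈ Dy.support.filter (fun P => rOf H P = Q) := fun P₁ hP₁ h₁ =>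
    Finset.mem_filter.mpr ⟨Finsupp.mem_support_iff.mpr (by rw [hDy P₁]; omega), hP₁⟩
  have hsub : ({P, P'} : Finset (Place K F)) ⊆ Dy.support.filter (fun P => rOf H P = Q) := by
    intro P₁ hP₁
    rcases Finset.mem_insert.mp hP₁ with rfl | hP₁
    · exact hmem _ hP h0
    · rw [Finset.mem_singleton.mp hP₁]; exact hmem _ hP' h0'
  have h1 := Finset.sum_le_sum_of_subset_of_nonneg (f := fun P : Place K F => P.ord (y : F)) hsub
    (fun P₁ hP₁ _ => hpole P₁ (Finset.mem_filter.mp hP₁).2)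
  rwa [Finset.sum_pair hne] at h1

/-- **(C)-injectivity**: a chart parameter separates the points of its disc. -/
theorem eq_of_valueAt_eq (H : LSpaceHyp R g c) {Q : Place k Ft} {t : F} (ht : t ∈ Odisc H Q)
    (hred : Q.ord (R.red ⟨t, ht.1⟩) = 1) {P P' : Place K F} (hP : P ∈ disc H Q)
    (hP' : P' ∈ disc H Q) {a : K} (ha : ValueAt P t a) (ha' : ValueAt P' t a) : P = P' := by
  classical
  by_contra hne
  have hlt := valuation_lt_one_of_valueAt H ht hred hP ha
  have haA : a ∈ R.A := (R.A.valuation_le_one_iff _).mp hlt.le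
  set b : R.A := ⟨a, haA⟩ with hb
  have hres : R.res b = 0 :=
    (R.orthoRedSystem.res_ker b).mpr ((R.A.mem_nonunits_iff).mpr hlt)
  set tt : R.Rw := ⟨t, ht.1⟩ with htt
  set bb : R.Rw := ⟨algebraMap K F (b : K), (R.mem_A_iff b).1 b.2⟩ with hbb
  set y : R.Rw := tt - bb with hy
  have hredy : R.red y = R.red tt := by
    rw [hy, map_sub, hbb, R.red_algebraMap, hres, map_zero, sub_zero]
  have hyne : R.red y ≠ 0 := by
    rw [hredy]
    intro h
    rw [h, Place.ord_zero] at hred
    omega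
  have hyF : (y : F) = t - algebraMap K F a := rfl
  have hy0 : (y : F) ≠ 0 := fun h => hyne (by rw [show y = 0 from Subtype.ext h, map_zero])
  have hpole : ∀ P₁ ∈ disc H Q, 0 ≤ P₁.ord (y : F) := by
    intro P₁ hP₁
    refine (PlaceB.ord_nonneg_iff P₁ hy0).mpr ?_
    rw [hyF]
    exact sub_mem (ht.2 P₁ hP₁) (P₁.algebraMap_mem' _)
  have h1 := (valuation_lt_one_iff_ord_pos P hy0).mp (by rw [hyF]; exact ha)
  have h2 := (valuation_lt_one_iff_ord_pos P' hy0).mp (by rw [hyF]; exact ha')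
  have h3 := ord_add_le_of_no_pole H hyne hpole hP hP' hne h1 h2
  rw [hredy, hred] at h3
  omega

/-- the points of an `IsCoord` witness are determined by the coordinates. -/
theorem isCoord_points_unique (H : LSpaceHyp R g c) {n : ℕ} (𝔠 : Chart H n) {τ : Fin n → K}
    {Pτ Pτ' : Fin n → Place K F} (hP : ∀ i, Pτ i ∈ disc H (𝔠.Q i))
    (hv : ∀ i, ValueAt (Pτ i) (𝔠.pt i).t (τ i)) (hP' : ∀ i, Pτ' i ∈ disc H (𝔠.Q i))
    (hv' : ∀ i, ValueAt (Pτ' i) (𝔠.pt i).t (τ i)) : Pτ = Pτ' :=
  funext fun i => eq_of_valueAt_eq H (𝔠.pt i).ht (𝔠.pt i).hred (hP i) (hP' i) (hv i) (hv' i)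

/-- the coordinates determine the class (universe-polymorphic form of `CoordInj`). -/
theorem isCoord_class_unique (H : LSpaceHyp R g c) {n : ℕ} (𝔠 : Chart H n) {ξ ξ' : Pic0 K F}
    {τ : Fin n → K} (h : IsCoord 𝔠 ξ τ) (h' : IsCoord 𝔠 ξ' τ) : ξ = ξ' := by
  obtain ⟨Pτ, hP, hv, hdeg, hmk⟩ := h
  obtain ⟨Pτ', hP', hv', hdeg', hmk'⟩ := h'
  have hPP := isCoord_points_unique H 𝔠 hP hv hP' hv'
  subst hPP
  rw [← hmk, ← hmk']

end Poly

section Zero

variable {K F k Ft : Type} [Field K] [Field F] [Algebra K F] [Field k] [Field Ft] [Algebra k Ft]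
variable {R : RedData K F k Ft} {g c : ℤ}
variable [FiniteResidues K F] [HasPrincipalDivisors K F] [Nonempty (Place K F)]
variable [FiniteResidues k Ft] [HasPrincipalDivisors k Ft] [Nonempty (Place k Ft)]
variable [Infinite k]

/-- **CONTRACT `CoordInj`** of nodes V + L, binder-free. -/
theorem coordInj_main (H : LSpaceHyp R g c) (n : ℕ) : CoordInj H n :=
  fun 𝔠 _ _ _ h h' => isCoord_class_unique H 𝔠 h h'

end Zero

end Fermat.Agent.GH.L
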