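/-
GATE-H (S19) / node L, file 6 (helper38): EXPORTS for the GAL node (I-fixed charts) — chart points
from ANY given parameter, pole control through `L(D)`, parameters inside `L(m · Pinf)`.

* `mem_Odisc_of_mem_riemannRochSpace` : `x ∈ L(D) ∩ Rw`, `D ≥ 0`, `(r_* D) Q = 0` ⟹ `x ∈ Odisc H Q`
                                        (pole control: no pole on the disc of `Q`);
* `exists_chartPt_of_param`           : ANY `t ∈ Odisc H Q` with `ord_Q (red t) = 1` is the parameter
                                        of a chart point over `Q`;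
* `centre_unique`                     : its centre is unique (so: fixed by every automorphism fixing
                                        `t` and the disc);
* `exists_special_param`              : for `Q ≠ Qinf` and `m ≥ c + 2` there is `t~ ∈ L(m · Qinf)` with a
                                        simple zero at `Q`;
* `exists_lift_param`                 : for `Pinf` over `Qinf`, such a `t~` is the reduction of some
                                        `x ∈ L(m · Pinf) ∩ Rw`;
* `exists_chartPt_of_lift`            : EVERY `x ∈ L(m · Pinf) ∩ Rw` with `ord_Q (red x) = 1`, `Q ≠ rOf Pinf`,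
                                        is the parameter of a chart point over `Q`
  — feed an inertia-fixed `x` (GAL (F2)) to get an inertia-fixed chart point.
-/
import Mathlib
import Fermat.Agent.GH.Vocab
import Fermat.Agent.GH.G6.Generic
import Fermat.Agent.GH.L.Inj

set_option autoImplicit false

noncomputable section

open AlgebraicCurve Module

namespace Fermat.Agent.GH.L

open Fermat.Agent.RRh45 Fermat.Agent.GJ.S37MinDiv Fermat.Agent.GJ.J1 Fermat.Agent.GJ.S37LSpace
  Fermat.Agent.GJ.S37ROfSurj Fermat.Agent.GJ.Ortho Fermat.Agent.S24 Fermat.Agent.GH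

variable {K F k Ft : Type*} [Field K] [Field F] [Algebra K F] [Field k] [Field Ft] [Algebra k Ft]
variable {R : RedData K F k Ft} {g c : ℤ}
variable [FiniteResidues K F] [HasPrincipalDivisors K F] [Nonempty (Place K F)]
variable [FiniteResidues k Ft] [HasPrincipalDivisors k Ft] [Nonempty (Place k Ft)]
variable [Infinite k]

/-- **pole control**: a Gauss-integral element of `L(D)`, `D ≥ 0`, has no pole on the disc of a
special place outside the support of `r_* D`. -/
theorem mem_Odisc_of_mem_riemannRochSpace (H : LSpaceHyp R g c) {D : Divisor K F} (hD : 0 ≤ D)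
    {x : F} (hxw : x ∈ R.Rw) (hxD : x ∈ riemannRochSpace D) {Q : Place k Ft}
    (hQ : Finsupp.mapDomain (rOf H) D Q = 0) : x ∈ Odisc H Q := by
  classical
  refine ⟨hxw, fun P hP => ?_⟩
  by_cases hx0 : x = 0
  · rw [hx0]; exact zero_mem _
  have hDP : D P = 0 := by
    have h0 : 0 ≤ D P := by simpa using Finsupp.le_def.mp hD P
    by_contra hne
    have hPs : P ∈ D.support := Finsupp.mem_support_iff.mpr hne
    rw [mapDomain_apply_eq_sum] at hQ
    have hmem : P ∈ D.support.filter (fun P => rOf H P = Q) := Finset.mem_filter.mpr ⟨hPs, hP⟩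
    have h1 : D P ≤ ∑ P' ∈ D.support.filter (fun P => rOf H P = Q), D P' :=
      Finset.single_le_sum (f := fun P' : Place K F => D P')
        (fun P' _ => by simpa using Finsupp.le_def.mp hD P') hmem
    omega
  have h1 := (mem_riemannRochSpace_iff.mp hxD P).resolve_left hx0
  rw [hDP, neg_zero] at h1
  exact (PlaceB.ord_nonneg_iff P hx0).mp h1

/-- **chart point from ANY parameter**. -/
theorem exists_chartPt_of_param (H : LSpaceHyp R g c) {Q : Place k Ft} {t : F}
    (ht : t ∈ Odisc H Q) (hred : Q.ord (R.red ⟨t, ht.1⟩) = 1) :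
    ∃ pt : ChartPt H Q, pt.t = t := by
  have hy0 : R.red ⟨t, ht.1⟩ ≠ 0 := by
    intro h
    rw [h, Place.ord_zero] at hred
    omega
  obtain ⟨P, hPpos, hPQ⟩ := exists_rOf_eq_of_ord_pos H hy0 (Q := Q) (by rw [hred]; exact one_pos)
  exact ⟨⟨P, hPQ, t, ht, valueAt_zero_of_ord_pos hPpos, hred⟩, rfl⟩

/-- the centre of a chart point is determined by its parameter. -/
theorem centre_unique (H : LSpaceHyp R g c) {Q : Place k Ft} {t : F} (ht : t ∈ Odisc H Q)
    (hred : Q.ord (R.red ⟨t, ht.1⟩) = 1) {P P' : Place K F} (hP : P ∈ disc H Q)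
    (hP' : P' ∈ disc H Q) (h0 : ValueAt P t 0) (h0' : ValueAt P' t 0) : P = P' :=
  eq_of_valueAt_eq H ht hred hP hP' h0 h0'

/-- two chart points over `Q` with the same parameter have the same centre. -/
theorem ChartPt.P_eq_of_t_eq (H : LSpaceHyp R g c) {Q : Place k Ft} (pt pt' : ChartPt H Q)
    (h : pt.t = pt'.t) : pt.P = pt'.P := by
  refine centre_unique H pt.ht pt.hred pt.hP pt'.hP pt.ht0 ?_
  rw [h]; exact pt'.ht0

omit [FiniteResidues K F] [HasPrincipalDivisors K F] [Nonempty (Place K F)] in
/-- on the special fibre: for `Q ≠ Qinf` and `m ≥ c + 2` there is a function with poles only at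
`Qinf` (of order `≤ m`) and a SIMPLE zero at `Q`. -/
theorem exists_special_param (H : LSpaceHyp R g c) {Qinf Q : Place k Ft} (hne : Q ≠ Qinf) {m : ℕ}
    (hm : c + 2 ≤ (m : ℤ)) :
    ∃ tt : Ft, tt ∈ riemannRochSpace (Finsupp.single Qinf (m : ℤ)) ∧ Q.ord tt = 1 := by
  classical
  set D : Divisor k Ft := Finsupp.single Qinf (m : ℤ) - Finsupp.single Q 1 with hD
  have hdeg : c + 1 ≤ Divisor.degree D := by
    rw [hD, map_sub, Divisor.degree_single, Divisor.degree_single, H.degFt, H.degFt]
    push_cast; omega
  obtain ⟨f, hfD, hf0, hford⟩ := G6.exists_member_avoiding H.degFt H.rrFt hdeg {Q}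
  refine ⟨f, riemannRochSpace_mono ?_ hfD, ?_⟩
  · rw [hD]
    exact sub_le_self _ (Finsupp.single_nonneg.mpr zero_le_one)
  · rw [hford Q (Finset.mem_singleton_self Q), hD, Finsupp.sub_apply, Finsupp.single_eq_same,
      Finsupp.single_eq_of_ne hne]
    ring

/-- such a special parameter lifts into `L(m · Pinf) ∩ Rw` for any `Pinf` over `Qinf`. -/
theorem exists_lift_param (H : LSpaceHyp R g c) {Pinf : Place K F} {m : ℕ} (hm : c + 1 ≤ (m : ℤ))
    {tt : Ft} (htt : tt ∈ riemannRochSpace (Finsupp.single (rOf H Pinf) (m : ℤ))) :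
    ∃ x : R.Rw, (x : F) ∈ riemannRochSpace (Finsupp.single Pinf (m : ℤ)) ∧ R.red x = tt := by
  have hD0 : (0 : Divisor K F) ≤ Finsupp.single Pinf (m : ℤ) :=
    Finsupp.single_nonneg.mpr (by positivity)
  have hdeg : c + 1 ≤ Divisor.degree (Finsupp.single Pinf (m : ℤ)) := by
    rw [Divisor.degree_single, H.degF]; simpa using hm
  have h := (redSpace_eq H hD0 hdeg).2.2
  rw [Finsupp.mapDomain_single] at h
  rw [← h] at htt
  exact htt

/-- **chart point from a lift**: every Gauss-integral `x ∈ L(m · Pinf)` whose reduction has a simple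
zero at `Q ≠ rOf Pinf` is the parameter of a chart point over `Q`. -/
theorem exists_chartPt_of_lift (H : LSpaceHyp R g c) {Pinf : Place K F} {m : ℕ} {x : F}
    (hxw : x ∈ R.Rw) (hxD : x ∈ riemannRochSpace (Finsupp.single Pinf (m : ℤ))) {Q : Place k Ft}
    (hne : Q ≠ rOf H Pinf) (hord : Q.ord (R.red ⟨x, hxw⟩) = 1) :
    ∃ pt : ChartPt H Q, pt.t = x := by
  have hD0 : (0 : Divisor K F) ≤ Finsupp.single Pinf (m : ℤ) :=
    Finsupp.single_nonneg.mpr (by positivity)
  have hO : x ∈ Odisc H Q := mem_Odisc_of_mem_riemannRochSpace H hD0 hxw hxD (by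
    rw [Finsupp.mapDomain_single, Finsupp.single_eq_of_ne hne])
  exact exists_chartPt_of_param H hO hord

/-- existence, all in one: for `Q ≠ rOf Pinf` there are `m` and `x ∈ L(m · Pinf) ∩ Rw` with
`ord_Q (red x) = 1`; any such `x` (e.g. an inertia-fixed one with the same reduction) gives a chart
point by `exists_chartPt_of_lift`. -/
theorem exists_param_in_L (H : LSpaceHyp R g c) (Pinf : Place K F) {Q : Place k Ft}
    (hne : Q ≠ rOf H Pinf) :
    ∃ (m : ℕ) (x : R.Rw), (x : F) ∈ riemannRochSpace (Finsupp.single Pinf (m : ℤ)) ∧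
      Q.ord (R.red x) = 1 := by
  have hc := H.c_nonneg
  set m : ℕ := (c + 2).toNat with hm
  have hmc : (m : ℤ) = c + 2 := Int.toNat_of_nonneg (by omega)
  obtain ⟨tt, httD, httord⟩ := exists_special_param H hne (m := m) (by omega)
  obtain ⟨x, hxD, hxred⟩ := exists_lift_param H (Pinf := Pinf) (m := m) (by omega) httD
  exact ⟨m, x, hxD, by rw [hxred, httord]⟩

end Fermat.Agent.GH.L
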